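/-
S56 / TW / TrForm : the trace form identifies `dualT (ad0 p M) = ad0(1)` with the trace zero matrices with the
twisted adjoint action `GT.tw`.
-/
import Fermat.Agent.S56.Defs
import Fermat.Agent.S56.GT.Defs

set_option autoImplicit false

noncomputable section

namespace Fermat.Agent.S56.TW

open Fermat.Agent.S55 Fermat.Agent.S55.Places ExtCitation Module

variable (p : ℕ) [Fact p.Prime] (k : Type) [Field k] [Algebra (ZMod p) k]

/-- `X ↦ (Y ↦ Tr_{k/𝔽_p} tr (X Y))`. -/
def trForm : Ad0 p k →ₗ[ZMod p] Module.Dual (ZMod p) (Ad0 p k) :=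
  LinearMap.mk₂ (ZMod p)
    (fun X Y => Algebra.trace (ZMod p) k (((X : M2 k) * (Y : M2 k)).trace))
    (fun X X' Y => by simp [add_mul])
    (fun c X Y => by simp)
    (fun X Y Y' => by simp [mul_add])
    (fun c X Y => by simp)

variable {p k}

@[simp] theorem trForm_apply (X Y : Ad0 p k) :
    trForm p k X Y = Algebra.trace (ZMod p) k (((X : M2 k) * (Y : M2 k)).trace) := rfl

/-- a trace zero matrix orthogonal to all trace zero matrices vanishes (`2 ≠ 0`). -/
theorem eq_zero_of_trace_mul_eq_zero (h2 : (2 : k) ≠ 0) (X : M2 k) (hX : X.trace = 0)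
    (h : ∀ Y : M2 k, Y.trace = 0 → (X * Y).trace = 0) : X = 0 := by
  have h01 := h !![0, 1; 0, 0] (by simp [Matrix.trace_fin_two])
  have h10 := h !![0, 0; 1, 0] (by simp [Matrix.trace_fin_two])
  have h00 := h !![1, 0; 0, -1] (by simp [Matrix.trace_fin_two])
  simp [Matrix.trace_fin_two, Matrix.mul_apply, Fin.sum_univ_two] at h01 h10 h00
  rw [Matrix.trace_fin_two] at hX
  have e1 : X 1 1 = - X 0 0 := by linear_combination hX
  have e0 : X 0 0 = 0 := by
    rw [e1] at h00
    have : (2 : k) * X 0 0 = 0 := by linear_combination h00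
    exact (mul_eq_zero.1 this).resolve_left h2
  ext i j
  fin_cases i <;> fin_cases j <;> simp [e0, e1, h01, h10]

theorem trForm_injective [Finite k] (hp2 : p ≠ 2) : Function.Injective (trForm p k) := by
  rw [injective_iff_map_eq_zero]
  intro X hX
  have hchar : CharP k p := charP_of_injective_algebraMap (algebraMap (ZMod p) k).injective p
  have h2 : (2 : k) ≠ 0 := by
    intro h
    have h' : ((2 : ℕ) : k) = 0 := by exact_mod_cast h
    rw [CharP.cast_eq_zero_iff k p] at h'
    exact hp2 ((Nat.prime_dvd_prime_iff_eq Fact.out Nat.prime_two).1 h')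
  apply Subtype.ext
  refine eq_zero_of_trace_mul_eq_zero h2 _ ((mem_Ad0 p _).1 X.2) (fun Y hY => ?_)
  refine (traceForm_nondegenerate (ZMod p) k).1 _ (fun c => ?_)
  have hcY : (c • Y) ∈ LinearMap.ker (Matrix.traceLinearMap (Fin 2) (ZMod p) k) := by
    rw [mem_Ad0, Matrix.trace_smul, hY, smul_zero]
  have := congrArg (fun f : Module.Dual (ZMod p) (Ad0 p k) => f ⟨c • Y, hcY⟩) hX
  simp only [trForm_apply, LinearMap.zero_apply, Matrix.mul_smul, Matrix.trace_smul,
    smul_eq_mul] at this
  rw [Algebra.traceForm_apply, mul_comm]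
  exact this

instance finiteDimensional_Ad0 [Finite k] : FiniteDimensional (ZMod p) (Ad0 p k) := by
  have : Finite (M2 k) := inferInstance
  have : Finite (Ad0 p k) := inferInstance
  exact Module.Finite.of_finite

/-- the trace form as an isomorphism. -/
def trEquiv [Finite k] (hp2 : p ≠ 2) : Ad0 p k ≃ₗ[ZMod p] Module.Dual (ZMod p) (Ad0 p k) :=
  LinearEquiv.ofBijective (trForm p k) ⟨trForm_injective hp2,
    (LinearMap.injective_iff_surjective_of_finrank_eq_finrank
      (Subspace.dual_finrank_eq).symm).1 (trForm_injective hp2)⟩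

@[simp] theorem trEquiv_apply [Finite k] (hp2 : p ≠ 2) (X : Ad0 p k) :
    trEquiv hp2 X = trForm p k X := rfl

/-- the residual representation with values in `GL₂`. -/
def rGL (M : GQ →* M2 k) : GQ →* GL (Fin 2) k := M.toHomUnits

@[simp] theorem rGL_val (M : GQ →* M2 k) (g : GQ) : (rGL M g).val = M g := rfl

theorem rGL_inv_val (M : GQ →* M2 k) (g : GQ) : ((rGL M g)⁻¹ : GL (Fin 2) k).val = M g⁻¹ := by
  rw [← map_inv]; rfl

/-- `tw` preserves trace zero matrices. -/
def twAd (g : GL (Fin 2) k) (X : Ad0 p k) : Ad0 p k :=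
  ⟨GT.tw g (X : M2 k), (mem_Ad0 p _).2 (GT.trace_tw_eq_zero g ((mem_Ad0 p _).1 X.2))⟩

@[simp] theorem twAd_coe (g : GL (Fin 2) k) (X : Ad0 p k) :
    ((twAd g X : Ad0 p k) : M2 k) = GT.tw g (X : M2 k) := rfl

/-- **equivariance** of the trace form. -/
theorem dualT_trForm (M : GQ →* M2 k)
    (hdet : ∀ σ, (M σ).det = algebraMap (ZMod p) k ((cycloChar p σ : (ZMod p)ˣ) : ZMod p))
    (g : GQ) (X : Ad0 p k) :
    ((ad0 p M).dual.twist (cycloChar p)) g (trForm p k X) = trForm p k (twAd (rGL M g) X) := by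
  ext Y
  rw [Representation.twist_apply_apply, LinearMap.smul_apply, Representation.dual_apply,
    Module.Dual.transpose_apply, LinearMap.comp_apply, trForm_apply, trForm_apply, twAd_coe,
    GT.tw_eq_det_smul, rGL_val, rGL_inv_val, hdet, ad0_apply_coe, inv_inv, Matrix.smul_mul,
    Matrix.trace_smul, algebraMap_smul, map_smul]
  congr 2
  rw [Matrix.trace_mul_comm, Matrix.mul_assoc (M g⁻¹ * (Y : M2 k)), Matrix.trace_mul_comm,
    ← Matrix.mul_assoc]

end Fermat.Agent.S56.TW

end
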