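/-
S56 / TW / Good : `Good g` = two distinct eigenvalues in `k` (2 x 2 matrices); stability under conjugation
and under passing to another generator of the cyclic group.
-/
import Mathlib

set_option autoImplicit false

namespace Fermat.Agent.S56.TW

open Polynomial Matrix

variable {k : Type} [Field k]

/-- regular semisimple with eigenvalues in `k`. -/
def GoodMat (g : GL (Fin 2) k) : Prop :=
  ∃ a b : k, a ≠ b ∧ g.val.charpoly = (X - C a) * (X - C b)

theorem charpoly_eq_iff (g : Matrix (Fin 2) (Fin 2) k) (a b : k) :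
    g.charpoly = (X - C a) * (X - C b) ↔ g.trace = a + b ∧ g.det = a * b := by
  rw [Matrix.charpoly_fin_two]
  constructor
  · intro h
    have h0 := congrArg (fun P => P.coeff 0) h
    have h1 := congrArg (fun P => P.coeff 1) h
    have e : (X - C a) * (X - C b) = X ^ 2 - C (a + b) * X + C (a * b) := by
      simp only [map_add, map_mul]; ring
    rw [e] at h0 h1
    simp [coeff_X, coeff_C] at h0 h1
    exact ⟨by linear_combination -h1, h0⟩
  · rintro ⟨h1, h2⟩
    rw [h1, h2]
    simp only [map_add, map_mul]; ring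

theorem sq_eq_trace_smul_sub (g : Matrix (Fin 2) (Fin 2) k) :
    g * g = g.trace • g - g.det • (1 : Matrix (Fin 2) (Fin 2) k) := by
  ext i j
  fin_cases i <;> fin_cases j <;>
    simp [Matrix.mul_apply, Fin.sum_univ_two, Matrix.trace_fin_two, Matrix.det_fin_two] <;> ring

theorem trace_pow_of_charpoly (g : Matrix (Fin 2) (Fin 2) k) (a b : k)
    (h : g.charpoly = (X - C a) * (X - C b)) (n : ℕ) : (g ^ n).trace = a ^ n + b ^ n := by
  obtain ⟨h1, h2⟩ := (charpoly_eq_iff g a b).1 h
  induction n using Nat.twoStepInduction with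
  | zero => simp; norm_num
  | one => simpa using h1
  | more n ih0 ih1 =>
    have e : g ^ (n + 2) = g.trace • g ^ (n + 1) - g.det • g ^ n := by
      rw [pow_add, pow_two, sq_eq_trace_smul_sub, mul_sub, mul_smul_comm, mul_smul_comm, mul_one,
        ← pow_succ]
    rw [e, Matrix.trace_sub, Matrix.trace_smul, Matrix.trace_smul, ih0, ih1, h1, h2]
    simp only [smul_eq_mul]
    ring

theorem charpoly_pow_of_charpoly (g : Matrix (Fin 2) (Fin 2) k) (a b : k)
    (h : g.charpoly = (X - C a) * (X - C b)) (n : ℕ) :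
    (g ^ n).charpoly = (X - C (a ^ n)) * (X - C (b ^ n)) := by
  rw [charpoly_eq_iff]
  refine ⟨trace_pow_of_charpoly g a b h n, ?_⟩
  rw [Matrix.det_pow, ((charpoly_eq_iff g a b).1 h).2, mul_pow]

theorem GoodMat.conj {g : GL (Fin 2) k} (hg : GoodMat g) (h : GL (Fin 2) k) :
    GoodMat (h * g * h⁻¹) := by
  obtain ⟨a, b, hab, hc⟩ := hg
  refine ⟨a, b, hab, ?_⟩
  rw [Units.val_mul, Units.val_mul, Matrix.coe_units_inv, Matrix.charpoly_units_conj, hc]

theorem GoodMat.gen {g h : GL (Fin 2) k} (hg : GoodMat g) (hk : ∃ n : ℕ, h = g ^ n)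
    (hj : ∃ j : ℕ, g = h ^ j) : GoodMat h := by
  obtain ⟨a, b, hab, hc⟩ := hg
  obtain ⟨n, rfl⟩ := hk
  obtain ⟨j, hj⟩ := hj
  have h1 : (g ^ n).val.charpoly = (X - C (a ^ n)) * (X - C (b ^ n)) := by
    rw [Units.val_pow_eq_pow_val]
    exact charpoly_pow_of_charpoly _ a b hc n
  refine ⟨a ^ n, b ^ n, fun hEq => hab ?_, h1⟩
  have h2 : g.val.charpoly = (X - C ((a ^ n) ^ j)) * (X - C ((b ^ n) ^ j)) := by
    conv_lhs => rw [hj]
    rw [Units.val_pow_eq_pow_val]
    exact charpoly_pow_of_charpoly _ _ _ h1 j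
  rw [hc, ← hEq] at h2
  have ha := congrArg (fun P => P.eval a) h2
  have hb := congrArg (fun P => P.eval b) h2
  simp at ha hb
  rw [sub_eq_zero] at ha hb
  rw [ha, hb]

end Fermat.Agent.S56.TW
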