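/-
S56 / TW / Defs : Taylor-Wiles primes (M6b), definitions.   Owner: helper55.

Setting: `σ : Representation (ZMod p) GQ Y` finite dimensional and smooth for `LS S0` (in the application
`σ = dualT ad0 = ad0(1)`), `r : GQ →* H` with `LS S0`-open kernel (in the application `r = ρbar`),
`Good : H → Prop` (in the application: two distinct eigenvalues in `k`).
The only input is the group theoretic selection hypothesis `SelHyp` (proved in `TW/Glue.lean` from
`S56/GT`).  The output is `TW.exists_primes` (`TW/Main.lean`).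
-/
import Fermat.Agent.S55.Z.ArithDatum
import Fermat.Agent.S55.Coh.Basic

set_option autoImplicit false

noncomputable section

namespace Fermat.Agent.S56.TW

open Fermat.Agent.S55 Fermat.Agent.S55.Places ExtCitation

/-- `τ` fixes all `N`-th roots of unity. -/
def FixesMu (N : ℕ) (τ : GQ) : Prop := ∀ ζ : Qbar, ζ ^ N = 1 → τ ζ = ζ

/-- all Frobenius elements at all places above `q` are good. -/
def FrobGood {H : Type} [Group H] (r : GQ →* H) (Good : H → Prop) (q : ℕ) : Prop :=
  ∀ P : ValuationSubring Qbar, P.LiesOverPrime q → ∀ φ : GQ, P.IsFrobeniusAt φ q → Good (r φ)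

variable {p : ℕ} [Fact p.Prime] {Y : Type} [AddCommGroup Y] [Module (ZMod p) Y]

/-- localisation at an arbitrary prime `q` (same formula as `Datum.loc`). -/
def locq (S : Finset Nat.Primes) (σ : Representation (ZMod p) GQ Y) (q : Nat.Primes) :
    Pair (LS S) σ (Lall.sub (DqP q)) (rsub σ (DqP q)) :=
  (Pair.res Lall σ (DqP q)).comp (Pair.infl LS_le_Lall σ)

theorem arithDatum_loc (S : Finset Nat.Primes) (hpS : pPrime p ∈ S)
    (σ : Representation (ZMod p) GQ Y) (v : ↥S) :
    (arithDatum p S hpS).loc v σ = locq S σ v.1 := rfl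

/-- **The selection hypothesis** (pure group theory + surjectivity of the cyclotomic character). -/
structure SelHyp (S0 : Finset Nat.Primes) (σ : Representation (ZMod p) GQ Y) {H : Type} [Group H]
    (r : GQ →* H) (Good : H → Prop) : Prop where
  /-- `Good` only depends on the cyclic subgroup generated -/
  good_gen : ∀ g h : H, Good g → (∃ k : ℕ, h = g ^ k) → (∃ j : ℕ, g = h ^ j) → Good h
  good_conj : ∀ g h : H, Good g → Good (h * g * h⁻¹)
  /-- padding -/
  sel0 : ∀ m : ℕ, ∃ τ : GQ, FixesMu (p ^ m) τ ∧ Good (r τ)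
  /-- selection -/
  sel : ∀ (m : ℕ) (ψ : GQ → Y), ψ ∈ Z1 (LS S0) σ → ψ ∉ B1 σ →
    ∃ τ : GQ, FixesMu (p ^ m) τ ∧ Good (r τ) ∧ ∀ y : Y, ψ τ ≠ σ τ y - y

end Fermat.Agent.S56.TW

end
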