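/-
S56 / TW / Loc : elementwise description of `locq`, cocycle identities (conjugation, powers).
-/
import Fermat.Agent.S56.TW.Defs

set_option autoImplicit false

noncomputable section

namespace Fermat.Agent.S56.TW

open Fermat.Agent.S55 Fermat.Agent.S55.Places ExtCitation

variable {p : ℕ} [Fact p.Prime] {Y : Type} [AddCommGroup Y] [Module (ZMod p) Y]
variable {S : Finset Nat.Primes} {σ : Representation (ZMod p) GQ Y}

theorem locq_map1_mk_eq_zero_iff (q : Nat.Primes) (z : ↥(Z1 (LS S) σ)) :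
    (locq S σ q).map1 (H1.mk (LS S) σ z) = 0 ↔
      ∃ y : Y, ∀ d ∈ DqP q, (z : GQ → Y) d = σ d y - y := by
  rw [Pair.map1_mk, H1.mk_eq_zero_iff]
  constructor
  · rintro ⟨y, hy⟩
    exact ⟨y, fun d hd => hy ⟨d, hd⟩⟩
  · rintro ⟨y, hy⟩
    exact ⟨y, fun d => hy d.1 d.2⟩

section cocycle

variable {G : Type} [Group G] {ρ : Representation (ZMod p) G Y} {z : G → Y}

/-- if `z d = (d - 1) y` then `z (g d g⁻¹) = (g d g⁻¹ - 1) (g y - z g)`. -/
theorem cocycle_conj (hz : ∀ g h : G, z (g * h) = ρ g (z h) + z g) (g d : G) (y : Y)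
    (hd : z d = ρ d y - y) :
    z (g * d * g⁻¹) = ρ (g * d * g⁻¹) (ρ g y - z g) - (ρ g y - z g) := by
  have h1 : z 1 = 0 := by
    have := hz 1 1
    simpa using this
  have hinv : z g⁻¹ = - ρ g⁻¹ (z g) := by
    have := hz g⁻¹ g
    rw [inv_mul_cancel, h1] at this
    rw [eq_neg_iff_add_eq_zero, add_comm]
    exact this.symm
  rw [hz, hz, hd, hinv]
  simp only [map_mul, Module.End.mul_apply, map_sub, map_neg]
  have e : ρ g⁻¹ (ρ g y) = y := by
    rw [← Module.End.mul_apply, ← map_mul, inv_mul_cancel, map_one, Module.End.one_apply]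
  rw [e]
  abel

/-- if `z φ = (φ - 1) y` then `z (φ ^ j) = (φ ^ j - 1) y`. -/
theorem cocycle_pow (hz : ∀ g h : G, z (g * h) = ρ g (z h) + z g) (φ : G) (y : Y)
    (hφ : z φ = ρ φ y - y) (j : ℕ) : z (φ ^ j) = ρ (φ ^ j) y - y := by
  induction j with
  | zero =>
    have := hz 1 1
    simpa using this
  | succ j ih =>
    rw [pow_succ', hz, ih, hφ, map_mul, Module.End.mul_apply, map_sub]
    abel

end cocycle

end Fermat.Agent.S56.TW

end
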