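/-
S56 / TW / Infl : enlarging the set of ramification `S0 ⊆ S`.
* `LS_mono`, the inflation `H¹(G_{S0}) → H¹(G_S)` is injective and compatible with `locq`;
* a class of `H¹(G_{S0 ∪ Q}, σ)` (`σ` unramified outside `S0`) which is locally trivial at all `q ∈ Q`
  is inflated from `G_{S0}`.
-/
import Fermat.Agent.S56.TW.Loc
import Fermat.Agent.S55.B.BasicOpen

set_option autoImplicit false

open scoped Pointwise

noncomputable section

namespace Fermat.Agent.S56.TW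

open Fermat.Agent.S55 Fermat.Agent.S55.Places ExtCitation

variable {p : ℕ} [Fact p.Prime] {Y : Type} [AddCommGroup Y] [Module (ZMod p) Y]

theorem LS_mono {S0 S : Finset Nat.Primes} (h : S0 ⊆ S) (U : Subgroup GQ)
    (hU : (LS S0).IsOpen U) : (LS S).IsOpen U := by
  obtain ⟨E, hE, hEU⟩ := LS_isOpen_iff.1 hU
  exact LS_isOpen_iff.2 ⟨E, ⟨hE.1, fun q hq => hE.2 q (fun hq0 => hq (h hq0))⟩, hEU⟩

/-- inflation `H¹(G_{S0}) → H¹(G_S)`. -/
def inflS {S0 S : Finset Nat.Primes} (h : S0 ⊆ S) (σ : Representation (ZMod p) GQ Y) :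
    Pair (LS S0) σ (LS S) σ := Pair.infl (LS_mono h) σ

theorem inflS_map1_injective {S0 S : Finset Nat.Primes} (h : S0 ⊆ S)
    (σ : Representation (ZMod p) GQ Y) : Function.Injective (inflS h σ).map1 := by
  rw [injective_iff_map_eq_zero]
  intro x hx
  obtain ⟨z, rfl⟩ := H1.mk_surjective _ _ x
  rw [Pair.map1_mk, H1.mk_eq_zero_iff] at hx
  exact (H1.mk_eq_zero_iff z).2 hx

theorem locq_inflS {S0 S : Finset Nat.Primes} (h : S0 ⊆ S) (σ : Representation (ZMod p) GQ Y)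
    (q : Nat.Primes) (x : H1 (LS S0) σ) :
    (locq S σ q).map1 ((inflS h σ).map1 x) = (locq S0 σ q).map1 x := by
  obtain ⟨z, rfl⟩ := H1.mk_surjective _ _ x
  rfl

/-- a cocycle which is a local coboundary at `q` vanishes on all inertia groups above `q` which act
trivially. -/
theorem cocycle_eq_zero_on_Ig {σ : Representation (ZMod p) GQ Y} {z : GQ → Y}
    (hz : ∀ g h : GQ, z (g * h) = σ g (z h) + z g) (q : Nat.Primes) (y : Y)
    (hy : ∀ d ∈ DqP q, z d = σ d y - y) (g x : GQ) (hx : x ∈ B.Ig q g) (hσ : σ x = 1) :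
    z x = 0 := by
  have : Fact (q : ℕ).Prime := ⟨q.2⟩
  have h1 : g⁻¹ * x * g ∈ DqP q := Iq_le_Dq (q : ℕ) ((B.mem_Ig_iff q g).1 hx)
  have h2 := cocycle_conj hz g _ y (hy _ h1)
  have e : g * (g⁻¹ * x * g) * g⁻¹ = x := by group
  rw [e, hσ, Module.End.one_apply, sub_self] at h2
  exact h2

/-- **descent of the level**. -/
theorem mem_Z1_of_loc_eq_zero {S0 Q : Finset Nat.Primes} (σ : Representation (ZMod p) GQ Y)
    [Smooth (LS S0) σ] [FiniteDimensional (ZMod p) Y] (z : ↥(Z1 (LS (S0 ∪ Q)) σ))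
    (hz : ∀ q ∈ Q, (locq (S0 ∪ Q) σ q).map1 (H1.mk (LS (S0 ∪ Q)) σ z) = 0) :
    (z : GQ → Y) ∈ Z1 (LS S0) σ := by
  have hcoc := (mem_Z1.1 z.2).1
  refine mem_Z1.2 ⟨hcoc, ?_⟩
  obtain ⟨N1, hN1, -, -, hN1z, -⟩ := (mem_Z1.1 z.2).2.exists_normal
  obtain ⟨N2, hN2, -, -, hN2σ⟩ := Smooth.exists_normal_of_fg (L := LS S0) (ρ := σ)
  have h1 : (z : GQ → Y) 1 = 0 := Z1.map_one z.2
  -- the subgroup `W = {g ∈ N2 | z g = 0}`
  let W : Subgroup GQ :=
    { carrier := {g | g ∈ N2 ∧ (z : GQ → Y) g = 0}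
      mul_mem' := by
        rintro a b ⟨ha, ha0⟩ ⟨hb, hb0⟩
        exact ⟨N2.mul_mem ha hb, by rw [hcoc, hb0, ha0, map_zero, add_zero]⟩
      one_mem' := ⟨N2.one_mem, h1⟩
      inv_mem' := by
        rintro a ⟨ha, ha0⟩
        exact ⟨N2.inv_mem ha, by rw [Z1.map_inv z.2, ha0, map_zero, neg_zero]⟩ }
  have hWle : N1 ⊓ N2 ≤ W := by
    rintro g ⟨hg1, hg2⟩
    refine ⟨hg2, ?_⟩
    have := hN1z 1 g hg1
    rw [one_mul, h1] at this
    exact this
  have hWall : Lall.IsOpen W :=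
    Lall.isOpen_mono (Lall.isOpen_inf (LS_le_Lall _ hN1) (LS_le_Lall _ hN2)) hWle
  have hW : (LS S0).IsOpen W := by
    refine B.isOpen_LS_of_Ig_le hWall (fun q hq g x hx => ?_)
    have hx2 : x ∈ N2 := B.Ig_le_of_isOpen hN2 hq g hx
    by_cases hqQ : q ∈ Q
    · obtain ⟨y, hy⟩ := (locq_map1_mk_eq_zero_iff q z).1 (hz q hqQ)
      exact ⟨hx2, cocycle_eq_zero_on_Ig hcoc q y hy g x hx (hN2σ x hx2)⟩
    · have hq' : q ∉ S0 ∪ Q := by
        rw [Finset.mem_union, not_or]; exact ⟨hq, hqQ⟩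
      exact hWle ⟨B.Ig_le_of_isOpen hN1 hq' g hx, hx2⟩
  exact ⟨W, hW, fun g s hs => by rw [hcoc, hs.2, map_zero, zero_add]⟩

theorem exists_inflS_eq_of_loc_eq_zero {S0 Q : Finset Nat.Primes}
    (σ : Representation (ZMod p) GQ Y) [Smooth (LS S0) σ] [FiniteDimensional (ZMod p) Y]
    (x : H1 (LS (S0 ∪ Q)) σ) (hx : ∀ q ∈ Q, (locq (S0 ∪ Q) σ q).map1 x = 0) :
    ∃ x0 : H1 (LS S0) σ, (inflS Finset.subset_union_left σ).map1 x0 = x := by
  obtain ⟨z, rfl⟩ := H1.mk_surjective _ _ x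
  exact ⟨H1.mk (LS S0) σ ⟨z, mem_Z1_of_loc_eq_zero σ z hx⟩, rfl⟩

end Fermat.Agent.S56.TW

end
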