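/-
S56 / TW / Frob : Frobenius elements at conjugate places; `FrobGood`; `q ≡ 1 mod p ^ m`.
-/
import Fermat.Agent.S56.TW.Defs
import Fermat.Agent.S55.Places.Transitive
import Fermat.Agent.S55.B.BasicOpen
import Fermat.Agent.ES.D.Cyclo

set_option autoImplicit false

open scoped Pointwise

noncomputable section

namespace Fermat.Agent.S56.TW

open Fermat.Agent.S55 Fermat.Agent.S55.Places ExtCitation

/-- elementwise description of the Prelude's `IsFrobeniusAt`. -/
theorem isFrobeniusAt_iff (A : ValuationSubring Qbar) (φ : GQ) (q : ℕ) :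
    A.IsFrobeniusAt φ q ↔
      φ ∈ A.decompositionSubgroup ℚ ∧ ∀ x ∈ A, φ x - x ^ q ∈ A.nonunits := by
  constructor
  · rintro ⟨h1, h2⟩
    refine ⟨h1, fun x hx => ?_⟩
    have h3 := h2 (IsLocalRing.residue A ⟨x, hx⟩)
    rw [← IsLocalRing.ResidueField.residue_smul, ← map_pow, ← sub_eq_zero, ← map_sub,
      IsLocalRing.residue_eq_zero_iff, ← ValuationSubring.coe_mem_nonunits_iff] at h3
    exact h3
  · rintro ⟨h1, h2⟩
    refine ⟨h1, fun y => ?_⟩
    obtain ⟨⟨x, hx⟩, rfl⟩ := IsLocalRing.residue_surjective y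
    rw [← IsLocalRing.ResidueField.residue_smul, ← map_pow, ← sub_eq_zero, ← map_sub,
      IsLocalRing.residue_eq_zero_iff, ← ValuationSubring.coe_mem_nonunits_iff]
    exact h2 x hx

/-- Frobenius elements at `g • A` are the conjugates of the Frobenius elements at `A`. -/
theorem isFrobeniusAt_smul_iff (A : ValuationSubring Qbar) (g φ : GQ) (q : ℕ) :
    (g • A).IsFrobeniusAt φ q ↔ A.IsFrobeniusAt (g⁻¹ * φ * g) q := by
  rw [isFrobeniusAt_iff, isFrobeniusAt_iff, mem_decomposition_smul_iff]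
  refine and_congr_right fun _ => ?_
  constructor
  · intro H x hx
    have h1 := H (g x) (by rw [transitive_mem_smul_iff]; simpa using hx)
    rw [transitive_mem_nonunits_smul_iff, map_sub] at h1
    simpa [AlgEquiv.mul_apply] using h1
  · intro H x hx
    rw [transitive_mem_smul_iff] at hx
    have h1 := H _ hx
    rw [transitive_mem_nonunits_smul_iff, map_sub]
    simpa [AlgEquiv.mul_apply] using h1

/-- two Frobenius elements at the same place differ by an element of the inertia group. -/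
theorem inv_mul_mem_inertia_of_isFrobeniusAt (A : ValuationSubring Qbar) (φ φ' : GQ) (q : ℕ)
    (h : A.IsFrobeniusAt φ q) (h' : A.IsFrobeniusAt φ' q) :
    φ⁻¹ * φ' ∈ A.inertiaSubgroupIn ℚ := by
  rw [isFrobeniusAt_iff] at h h'
  rw [transitive_mem_inertia_iff]
  refine ⟨(A.decompositionSubgroup ℚ).mul_mem ((A.decompositionSubgroup ℚ).inv_mem h.1) h'.1,
    fun x hx => ?_⟩
  have h1 : φ' x - φ x ∈ A.nonunits := by
    have e : φ' x - φ x = (φ' x - x ^ q) - (φ x - x ^ q) := by ring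
    rw [e, ValuationSubring.mem_nonunits_iff]
    exact Valuation.map_sub_lt _ ((ValuationSubring.mem_nonunits_iff A).1 (h'.2 x hx))
      ((ValuationSubring.mem_nonunits_iff A).1 (h.2 x hx))
  have h2 : φ • A = A := h.1
  rw [← h2, transitive_mem_nonunits_smul_iff, map_sub] at h1
  simpa [AlgEquiv.mul_apply] using h1

/-- inertia groups at primes outside `S0` lie in every `LS S0`-open subgroup. -/
theorem inertia_le_of_isOpen {S0 : Finset Nat.Primes} {U : Subgroup GQ} (hU : (LS S0).IsOpen U)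
    {q : Nat.Primes} (hq : q ∉ S0) (A : ValuationSubring Qbar) (hA : A.LiesOverPrime (q : ℕ)) :
    A.inertiaSubgroupIn ℚ ≤ U := by
  obtain ⟨E, hE, hEU⟩ := LS_isOpen_iff.1 hU
  exact (hE.2 q hq A hA).trans hEU

/-- one good Frobenius element at one place above `q ∉ S0` makes all of them good. -/
theorem frobGood_of {S0 : Finset Nat.Primes} {H : Type} [Group H] {r : GQ →* H}
    (hr : (LS S0).IsOpen r.ker) {Good : H → Prop}
    (hconj : ∀ g h : H, Good g → Good (h * g * h⁻¹)) {q : Nat.Primes} (hq : q ∉ S0)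
    (A : ValuationSubring Qbar) (hA : A.LiesOverPrime (q : ℕ)) (φ : GQ)
    (hφ : A.IsFrobeniusAt φ (q : ℕ)) (hgood : Good (r φ)) : FrobGood r Good (q : ℕ) := by
  have : Fact (q : ℕ).Prime := ⟨q.2⟩
  intro P hP φ' hφ'
  obtain ⟨a, rfl⟩ := exists_smul_padicPlace_eq (q : ℕ) A hA
  obtain ⟨b, rfl⟩ := exists_smul_padicPlace_eq (q : ℕ) P hP
  rw [isFrobeniusAt_smul_iff] at hφ hφ'
  have h1 := inv_mul_mem_inertia_of_isFrobeniusAt _ _ _ _ hφ hφ'
  have h2 := inertia_le_of_isOpen hr hq _ (padicPlace_liesOverPrime (q : ℕ)) h1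
  rw [MonoidHom.mem_ker] at h2
  simp only [map_mul, map_inv, mul_inv_rev, inv_inv] at h2
  have h3 : r φ' = (r b * (r a)⁻¹) * r φ * (r b * (r a)⁻¹)⁻¹ := by
    have h4 : (r b)⁻¹ * r φ' * r b = (r a)⁻¹ * r φ * r a := by
      have : ((r a)⁻¹ * r φ * r a)⁻¹ * ((r b)⁻¹ * r φ' * r b) = 1 := by
        rw [← h2]; group
      exact (inv_mul_eq_one.1 this).symm
    calc r φ' = r b * ((r b)⁻¹ * r φ' * r b) * (r b)⁻¹ := by group
      _ = _ := by rw [h4]; group
  rw [h3]
  exact hconj _ _ hgood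

/-- a Frobenius element at `q ≠ p` fixing `μ_{p^m}` forces `q ≡ 1 mod p^m`. -/
theorem dvd_sub_one_of_fixesMu {p : ℕ} [Fact p.Prime] (m : ℕ) {q : ℕ} (hq : q.Prime) (hqp : q ≠ p)
    (A : ValuationSubring Qbar) (hA : A.LiesOverPrime q) (φ : GQ) (hφ : A.IsFrobeniusAt φ q)
    (hfix : FixesMu (p ^ m) φ) : p ^ m ∣ q - 1 := by
  have hp : p.Prime := Fact.out
  have : NeZero (p ^ m) := ⟨pow_ne_zero _ hp.ne_zero⟩
  have hnd : ¬ q ∣ p ^ m := fun h => hqp ((Nat.prime_dvd_prime_iff_eq hq hp).1 (hq.dvd_of_dvd_pow h))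
  have h1 := ES.D.cyc_frobenius (p ^ m) hq hnd hA hφ
  rw [ES.D.cyc_eq_one_of_fixes (p ^ m) φ hfix, Units.val_one] at h1
  have h2 : ((1 : ℕ) : ZMod (p ^ m)) = (q : ZMod (p ^ m)) := by rw [Nat.cast_one]; exact h1
  rw [ZMod.natCast_eq_natCast_iff] at h2
  exact (Nat.modEq_iff_dvd' hq.one_lt.le).1 h2

end Fermat.Agent.S56.TW

end
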