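/-
S56 / TW / Prime : existence of ONE Taylor-Wiles prime detecting a given global class
(Frobenius density theorem + `SelHyp`).
-/
import Fermat.Agent.S56.TW.Loc
import Fermat.Agent.S56.TW.Frob
import Fermat.Agent.Lib.FrobDensity.Apps

set_option autoImplicit false

open scoped Pointwise

noncomputable section

namespace Fermat.Agent.S56.TW

open Fermat.Agent.S55 Fermat.Agent.S55.Places ExtCitation

/-- Frobenius density in the language of `Lall`. -/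
theorem exists_frob_mod {N : Subgroup GQ} (hN : Lall.IsOpen N) (τ : GQ) (T : Finset Nat.Primes) :
    ∃ (q : Nat.Primes) (A : ValuationSubring Qbar) (φ : GQ), q ∉ T ∧ A.LiesOverPrime (q : ℕ) ∧
      A.IsFrobeniusAt φ (q : ℕ) ∧ (∃ k : ℕ, φ⁻¹ * τ ^ k ∈ N) ∧ (∃ j : ℕ, τ⁻¹ * φ ^ j ∈ N) := by
  obtain ⟨E, hE, hEN⟩ := Lall_isOpen_iff.1 hN
  obtain ⟨ℓ, A, φ, U, h1, h2, h3, h4, hU, -, ⟨k, hk⟩, ⟨j, hj⟩⟩ :=
    FD.exists_frobenius_field E τ (T.image (fun q : Nat.Primes => (q : ℕ)))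
  have hUN : U ≤ N := fun u hu =>
    hEN ((IntermediateField.mem_fixingSubgroup_iff E u).2 (hU u hu))
  refine ⟨⟨ℓ, h1⟩, A, φ, fun hT => h2 (Finset.mem_image.2 ⟨_, hT, rfl⟩), h3, h4,
    ⟨k, hUN hk⟩, ⟨j, hUN hj⟩⟩

theorem FixesMu.mul {N : ℕ} {a b : GQ} (ha : FixesMu N a) (hb : FixesMu N b) :
    FixesMu N (a * b) := fun ζ hζ => by
  rw [AlgEquiv.mul_apply, hb ζ hζ, ha ζ hζ]

theorem FixesMu.one (N : ℕ) : FixesMu N 1 := fun _ _ => rfl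

theorem FixesMu.pow {N : ℕ} {a : GQ} (ha : FixesMu N a) (k : ℕ) : FixesMu N (a ^ k) := by
  induction k with
  | zero => simpa using FixesMu.one N
  | succ k ih => rw [pow_succ]; exact ih.mul ha

theorem FixesMu.inv {N : ℕ} {a : GQ} (ha : FixesMu N a) : FixesMu N a⁻¹ := fun ζ hζ => by
  have h1 : a⁻¹ (a ζ) = ζ := by
    rw [← AlgEquiv.mul_apply, inv_mul_cancel, AlgEquiv.one_apply]
  rw [ha ζ hζ] at h1
  exact h1

variable {p : ℕ} [Fact p.Prime]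

/-- the common part of `exists_prime0`, `exists_prime`. -/
theorem exists_prime_aux {S0 : Finset Nat.Primes} (hpS0 : pPrime p ∈ S0) {H : Type} [Group H]
    {r : GQ →* H} (hr : (LS S0).IsOpen r.ker) {Good : H → Prop}
    (hgen : ∀ g h : H, Good g → (∃ k : ℕ, h = g ^ k) → (∃ j : ℕ, g = h ^ j) → Good h)
    (hconj : ∀ g h : H, Good g → Good (h * g * h⁻¹))
    (m : ℕ) (T : Finset Nat.Primes) {N0 : Subgroup GQ} (hN0 : Lall.IsOpen N0) (τ : GQ)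
    (hτ : FixesMu (p ^ m) τ) (hg : Good (r τ)) :
    ∃ (q : Nat.Primes) (A : ValuationSubring Qbar) (φ : GQ), q ∉ T ∧ q ∉ S0 ∧
      p ^ m ∣ (q : ℕ) - 1 ∧ FrobGood r Good (q : ℕ) ∧ A.LiesOverPrime (q : ℕ) ∧
      A.IsFrobeniusAt φ (q : ℕ) ∧ ∃ j : ℕ, τ⁻¹ * φ ^ j ∈ N0 := by
  classical
  have hp : p.Prime := Fact.out
  have hc : Lall.IsOpen (cycloNF (p ^ m)).fixingSubgroup :=
    Lall_isOpen_iff.2 ⟨_, finiteDimensional_cycloNF _ (pow_ne_zero _ hp.ne_zero), le_rfl⟩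
  have hN : Lall.IsOpen (N0 ⊓ (r.ker ⊓ (cycloNF (p ^ m)).fixingSubgroup)) :=
    Lall.isOpen_inf hN0 (Lall.isOpen_inf (LS_le_Lall _ hr) hc)
  obtain ⟨q, A, φ, hqT, hA, hφ, ⟨k, hk⟩, ⟨j, hj⟩⟩ := exists_frob_mod hN τ (T ∪ S0)
  rw [Finset.mem_union, not_or] at hqT
  have hqp : (q : ℕ) ≠ p := by
    intro h
    apply hqT.2
    have : q = pPrime p := Subtype.ext h
    rw [this]; exact hpS0
  have hrk : r φ = r τ ^ k := by
    have : φ⁻¹ * τ ^ k ∈ r.ker := hk.2.1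
    rw [MonoidHom.mem_ker, map_mul, map_inv, map_pow, inv_mul_eq_one] at this
    exact this
  have hrj : r τ = r φ ^ j := by
    have : τ⁻¹ * φ ^ j ∈ r.ker := hj.2.1
    rw [MonoidHom.mem_ker, map_mul, map_inv, map_pow, inv_mul_eq_one] at this
    exact this
  have hgφ : Good (r φ) := hgen _ _ hg ⟨k, hrk⟩ ⟨j, hrj⟩
  have hfix : FixesMu (p ^ m) φ := by
    have h1 : FixesMu (p ^ m) (φ⁻¹ * τ ^ k) := (mem_fixingSubgroup_cycloNF_iff _ _).1 hk.2.2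
    have e : φ = τ ^ k * (φ⁻¹ * τ ^ k)⁻¹ := by group
    rw [e]
    exact (hτ.pow k).mul h1.inv
  exact ⟨q, A, φ, hqT.1, hqT.2, dvd_sub_one_of_fixesMu m q.2 hqp A hA φ hφ hfix,
    frobGood_of hr hconj hqT.2 A hA φ hφ hgφ, hA, hφ, j, hj.1⟩

variable {Y : Type} [AddCommGroup Y] [Module (ZMod p) Y]
variable {S0 : Finset Nat.Primes} {σ : Representation (ZMod p) GQ Y} {H : Type} [Group H]
  {r : GQ →* H} {Good : H → Prop}

/-- padding primes. -/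
theorem exists_prime0 (hyp : SelHyp S0 σ r Good) (hpS0 : pPrime p ∈ S0)
    (hr : (LS S0).IsOpen r.ker) (m : ℕ) (T : Finset Nat.Primes) :
    ∃ q : Nat.Primes, q ∉ T ∧ q ∉ S0 ∧ p ^ m ∣ (q : ℕ) - 1 ∧ FrobGood r Good (q : ℕ) := by
  obtain ⟨τ, hτ, hg⟩ := hyp.sel0 m
  obtain ⟨q, A, φ, h1, h2, h3, h4, -⟩ :=
    exists_prime_aux hpS0 hr hyp.good_gen hyp.good_conj m T Lall.isOpen_top τ hτ hg
  exact ⟨q, h1, h2, h3, h4⟩

/-- **one Taylor-Wiles prime**: a nonzero class of `H¹(G_{S0}, σ)` is detected at a good prime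
`q ≡ 1 mod p^m` outside any given finite set. -/
theorem exists_prime (hyp : SelHyp S0 σ r Good) (hpS0 : pPrime p ∈ S0)
    (hr : (LS S0).IsOpen r.ker) [Smooth (LS S0) σ] [FiniteDimensional (ZMod p) Y]
    (m : ℕ) (T : Finset Nat.Primes) (x : H1 (LS S0) σ) (hx : x ≠ 0) :
    ∃ q : Nat.Primes, q ∉ T ∧ q ∉ S0 ∧ p ^ m ∣ (q : ℕ) - 1 ∧ FrobGood r Good (q : ℕ) ∧
      (locq S0 σ q).map1 x ≠ 0 := by
  obtain ⟨z, rfl⟩ := H1.mk_surjective _ _ x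
  have hzB : (z : GQ → Y) ∉ B1 σ := by
    intro h
    exact hx ((H1.mk_eq_zero_iff z).2 (mem_B1.1 h))
  have hcoc := (mem_Z1.1 z.2).1
  obtain ⟨τ, hτ, hg, hne⟩ := hyp.sel m z z.2 hzB
  obtain ⟨N1, hN1, -, -, hN1z, -⟩ := (mem_Z1.1 z.2).2.exists_normal
  obtain ⟨N2, hN2, -, -, hN2σ⟩ := Smooth.exists_normal_of_fg (L := LS S0) (ρ := σ)
  obtain ⟨q, A, φ, h1, h2, h3, h4, hA, hφ, j, hj⟩ :=
    exists_prime_aux hpS0 hr hyp.good_gen hyp.good_conj m T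
      (LS_le_Lall _ ((LS S0).isOpen_inf hN1 hN2)) τ hτ hg
  refine ⟨q, h1, h2, h3, h4, fun h0 => ?_⟩
  have : Fact (q : ℕ).Prime := ⟨q.2⟩
  obtain ⟨y, hy⟩ := (locq_map1_mk_eq_zero_iff q z).1 h0
  obtain ⟨a, rfl⟩ := exists_smul_padicPlace_eq (q : ℕ) A hA
  have hd : a⁻¹ * φ * a ∈ DqP q :=
    (mem_decomposition_smul_iff _ a φ).1 hφ.mem_decompositionSubgroup
  have h5 := cocycle_conj hcoc a _ y (hy _ hd)
  have e : a * (a⁻¹ * φ * a) * a⁻¹ = φ := by group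
  rw [e] at h5
  have h6 := cocycle_pow hcoc φ _ h5 j
  -- `φ ^ j = τ * u`, `u ∈ N1 ⊓ N2`
  set u := τ⁻¹ * φ ^ j with hu
  have e2 : φ ^ j = τ * u := by rw [hu]; group
  rw [e2, hN1z τ u hj.1, map_mul, hN2σ u hj.2, mul_one] at h6
  exact hne _ h6

end Fermat.Agent.S56.TW

end
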