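/-
S56 / TW / Select : abstract induction.  A family of subspaces `K q ⊆ V` (kernels of localisation maps)
such that every nonzero vector is outside some `K q`, `q` admissible outside any given finite set:
then `finrank V` admissible indices suffice to kill `V`.
-/
import Mathlib

set_option autoImplicit false

namespace Fermat.Agent.S56.TW

open Module

variable {F V : Type} [Field F] [AddCommGroup V] [Module F V] [FiniteDimensional F V]
variable {I : Type}

theorem exists_family_aux [DecidableEq I] (P : I → Prop) (K : I → Submodule F V)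
    (h0 : ∀ T : Finset I, ∃ q, q ∉ T ∧ P q)
    (h1 : ∀ (T : Finset I) (v : V), v ≠ 0 → ∃ q, q ∉ T ∧ P q ∧ v ∉ K q) (T : Finset I) (n : ℕ) :
    ∃ qv : Fin n → I, Function.Injective qv ∧ (∀ i, qv i ∉ T ∧ P (qv i)) ∧
      finrank F ↥(⨅ i, K (qv i)) + n ≤ max (finrank F V) n := by
  induction n with
  | zero =>
    refine ⟨Fin.elim0, fun i => i.elim0, fun i => i.elim0, ?_⟩
    simp only [add_zero]
    exact le_max_of_le_left (Submodule.finrank_le _)
  | succ n ih =>
    obtain ⟨qv, hinj, hP, hrk⟩ := ih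
    set K0 : Submodule F V := ⨅ i, K (qv i) with hK0
    -- choose the next index
    obtain ⟨q, hqT, hqP, hq⟩ : ∃ q, q ∉ T ∪ Finset.univ.image qv ∧ P q ∧
        (K0 ≠ ⊥ → ∃ v ∈ K0, v ∉ K q) := by
      by_cases hb : K0 = ⊥
      · obtain ⟨q, h1q, h2q⟩ := h0 (T ∪ Finset.univ.image qv)
        exact ⟨q, h1q, h2q, fun h => absurd hb h⟩
      · obtain ⟨v, hv, hv0⟩ := Submodule.exists_mem_ne_zero_of_ne_bot hb
        obtain ⟨q, h1q, h2q, h3q⟩ := h1 (T ∪ Finset.univ.image qv) v hv0
        exact ⟨q, h1q, h2q, fun _ => ⟨v, hv, h3q⟩⟩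
    rw [Finset.mem_union, not_or] at hqT
    have hqim : ∀ i, qv i ≠ q := fun i h =>
      hqT.2 (Finset.mem_image.2 ⟨i, Finset.mem_univ _, h⟩)
    refine ⟨Fin.cons q qv, ?_, ?_, ?_⟩
    · rw [Fin.cons_injective_iff]
      exact ⟨fun ⟨i, hi⟩ => hqim i hi, hinj⟩
    · intro i
      refine Fin.cases ?_ (fun j => ?_) i
      · simpa using ⟨hqT.1, hqP⟩
      · simpa using hP j
    · have e : (⨅ i, K ((Fin.cons q qv : Fin (n + 1) → I) i)) = K q ⊓ K0 := by
        rw [hK0]
        apply le_antisymm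
        · refine le_inf ?_ (le_iInf fun j => ?_)
          · exact (iInf_le _ (0 : Fin (n + 1))).trans (by simp)
          · exact (iInf_le _ (Fin.succ j)).trans (by simp)
        · refine le_iInf fun i => ?_
          refine Fin.cases ?_ (fun j => ?_) i
          · simp
          · simpa using inf_le_right.trans (iInf_le _ j)
      rw [e]
      by_cases hb : K0 = ⊥
      · rw [hb, inf_bot_eq, finrank_bot]
        simp
      · obtain ⟨v, hv, hvq⟩ := hq hb
        have hlt : K q ⊓ K0 < K0 := by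
          refine lt_of_le_of_ne inf_le_right (fun h => hvq ?_)
          have : v ∈ K q ⊓ K0 := by rw [h]; exact hv
          exact this.1
        have := Submodule.finrank_lt_finrank_of_lt hlt
        have h2 : 0 < finrank F ↥K0 := by
          rw [finrank_pos_iff_exists_ne_zero]
          obtain ⟨w, hw, hw0⟩ := Submodule.exists_mem_ne_zero_of_ne_bot hb
          exact ⟨⟨w, hw⟩, fun h => hw0 (congrArg Subtype.val h)⟩
        omega

/-- the abstract selection statement. -/
theorem exists_family [DecidableEq I] (P : I → Prop) (K : I → Submodule F V)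
    (h0 : ∀ T : Finset I, ∃ q, q ∉ T ∧ P q)
    (h1 : ∀ (T : Finset I) (v : V), v ≠ 0 → ∃ q, q ∉ T ∧ P q ∧ v ∉ K q) (T : Finset I) :
    ∃ qv : Fin (finrank F V) → I, Function.Injective qv ∧ (∀ i, qv i ∉ T ∧ P (qv i)) ∧
      ∀ v : V, (∀ i, v ∈ K (qv i)) → v = 0 := by
  obtain ⟨qv, hinj, hP, hrk⟩ := exists_family_aux P K h0 h1 T (finrank F V)
  refine ⟨qv, hinj, hP, fun v hv => ?_⟩
  rw [max_self] at hrk
  have h2 : finrank F ↥(⨅ i, K (qv i)) = 0 := by omega
  rw [Submodule.finrank_eq_zero] at h2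
  have : v ∈ ⨅ i, K (qv i) := (Submodule.mem_iInf _).2 hv
  rw [h2] at this
  exact (Submodule.mem_bot F).1 this

end Fermat.Agent.S56.TW
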