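/-
S56 / TW / Main : **existence of Taylor-Wiles primes** (abstract form).
`r := finrank_{F_p} H¹(G_{S0}, σ)` primes `q ≡ 1 mod p^m`, outside `T ∪ S0`, with good Frobenius elements,
such that `H¹(G_{S0 ∪ Q}, σ) → ∏_{q ∈ Q} H¹(D_q, σ)` is injective.
-/
import Fermat.Agent.S56.TW.Prime
import Fermat.Agent.S56.TW.Infl
import Fermat.Agent.S56.TW.Select
import Fermat.Agent.S55.Z.TargetB

set_option autoImplicit false

noncomputable section

namespace Fermat.Agent.S56.TW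

open Fermat.Agent.S55 Fermat.Agent.S55.Places ExtCitation Module

variable {p : ℕ} [Fact p.Prime] {Y : Type} [AddCommGroup Y] [Module (ZMod p) Y]
variable {S0 : Finset Nat.Primes} {σ : Representation (ZMod p) GQ Y} {H : Type} [Group H]
  {r : GQ →* H} {Good : H → Prop}

theorem exists_primes (hp2 : p ≠ 2) (hyp : SelHyp S0 σ r Good) (hpS0 : pPrime p ∈ S0)
    (hr : (LS S0).IsOpen r.ker) [Smooth (LS S0) σ] [FiniteDimensional (ZMod p) Y]
    (m : ℕ) (T : Finset Nat.Primes) :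
    ∃ qv : Fin (finrank (ZMod p) (H1 (LS S0) σ)) → Nat.Primes, Function.Injective qv ∧
      (∀ i, qv i ∉ T ∧ qv i ∉ S0 ∧ p ^ m ∣ (qv i : ℕ) - 1 ∧ FrobGood r Good (qv i : ℕ)) ∧
      ∀ x : H1 (LS (S0 ∪ Finset.univ.image qv)) σ,
        (∀ i, (locq (S0 ∪ Finset.univ.image qv) σ (qv i)).map1 x = 0) → x = 0 := by
  classical
  have hfin : FiniteDimensional (ZMod p) (H1 (LS S0) σ) := glob_fin1 hp2 S0 hpS0 σ
  obtain ⟨qv, hinj, hP, hkill⟩ := exists_family (F := ZMod p) (V := H1 (LS S0) σ)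
    (fun q : Nat.Primes => q ∉ S0 ∧ p ^ m ∣ (q : ℕ) - 1 ∧ FrobGood r Good (q : ℕ))
    (fun q => LinearMap.ker (locq S0 σ q).map1)
    (fun T => by
      obtain ⟨q, h1, h2, h3, h4⟩ := exists_prime0 hyp hpS0 hr m T
      exact ⟨q, h1, h2, h3, h4⟩)
    (fun T v hv => by
      obtain ⟨q, h1, h2, h3, h4, h5⟩ := exists_prime hyp hpS0 hr m T v hv
      exact ⟨q, h1, ⟨h2, h3, h4⟩, fun h => h5 (LinearMap.mem_ker.1 h)⟩) T
  refine ⟨qv, hinj, fun i => ⟨(hP i).1, (hP i).2⟩, fun x hx => ?_⟩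
  obtain ⟨x0, rfl⟩ := exists_inflS_eq_of_loc_eq_zero σ x (fun q hq => by
    obtain ⟨i, -, rfl⟩ := Finset.mem_image.1 hq
    exact hx i)
  have : x0 = 0 := hkill x0 (fun i => by
    rw [LinearMap.mem_ker, ← locq_inflS Finset.subset_union_left σ (qv i) x0]
    exact hx i)
  rw [this, map_zero]

/-- the same in the language of `arithDatum` (shape of `GW.finrank_Sel_le_of`, `Target.tw`).
(`r` is generalised on purpose: `Fin (finrank ..)` makes the unifier unfold `finrank`.) -/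
theorem exists_primes_datum (hp2 : p ≠ 2) (hyp : SelHyp S0 σ r Good) (hpS0 : pPrime p ∈ S0)
    (hr : (LS S0).IsOpen r.ker) [Smooth (LS S0) σ] [FiniteDimensional (ZMod p) Y] :
    ∃ n : ℕ, ∀ m : ℕ, ∃ qv : Fin n → Nat.Primes, Function.Injective qv ∧
      (∀ i, qv i ∉ S0 ∧ p ^ m ∣ (qv i : ℕ) - 1) ∧ (∀ i, FrobGood r Good (qv i : ℕ)) ∧
      ∀ (hpS : pPrime p ∈ S0 ∪ Finset.univ.image qv)
        (y : H1 (LS (S0 ∪ Finset.univ.image qv)) σ),
        (∀ v : ↥(S0 ∪ Finset.univ.image qv), v.1 ∉ S0 →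
          ((arithDatum p (S0 ∪ Finset.univ.image qv) hpS).loc v σ).map1 y = 0) → y = 0 := by
  have key := fun m : ℕ => exists_primes hp2 hyp hpS0 hr m S0
  generalize finrank (ZMod p) (H1 (LS S0) σ) = n at key
  refine ⟨n, fun m => ?_⟩
  obtain ⟨qv, hinj, hq, hkill⟩ := key m
  refine ⟨qv, hinj, fun i => ⟨(hq i).1, (hq i).2.2.1⟩, fun i => (hq i).2.2.2,
    fun hpS y hy => hkill y (fun i => ?_)⟩
  have h1 := hy ⟨qv i, Finset.mem_union_right _ (Finset.mem_image.2 ⟨i, Finset.mem_univ _, rfl⟩)⟩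
    (hq i).1
  rw [arithDatum_loc] at h1
  exact h1

end Fermat.Agent.S56.TW

end
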