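/-
S56 / TW / Glue : `SelHyp` for `σ = ad0(1) = dualT (ad0 p M)`, `r = rGL M`, `Good = GoodMat`, from the group
theoretic selection lemma `GT.selection`, and the final statement `TW.exists_TW_primes`.
-/
import Fermat.Agent.S56.TW.Main
import Fermat.Agent.S56.TW.Good
import Fermat.Agent.S56.TW.TrForm
import Fermat.Agent.S56.GT.Select

set_option autoImplicit false

open scoped Pointwise

noncomputable section

namespace Fermat.Agent.S56.TW

open Fermat.Agent.S55 Fermat.Agent.S55.Places ExtCitation Module Polynomial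

variable {p : ℕ} [Fact p.Prime] {k : Type} [Field k] [Algebra (ZMod p) k]

/-! ### openness, smoothness -/

theorem isOpen_ker_rGL {M : GQ →* M2 k} (hfin : GaloisFactorsThroughFiniteLevel M)
    {T : Finset Nat.Primes} (hT : UnramOutside M T) : (LS T).IsOpen (rGL M).ker := by
  obtain ⟨L, hL, hM⟩ := hfin
  have hall : Lall.IsOpen (rGL M).ker := by
    refine Lall_isOpen_iff.2 ⟨L, hL, fun σ hσ => ?_⟩
    rw [MonoidHom.mem_ker]
    apply Units.ext
    rw [rGL_val, Units.val_one]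
    exact hM σ ((IntermediateField.mem_fixingSubgroup_iff L σ).1 hσ)
  refine B.isOpen_LS_of_Ig_le hall (fun q hq g x hx => ?_)
  have : Fact (q : ℕ).Prime := ⟨q.2⟩
  rw [B.Ig_eq_inertia] at hx
  rw [MonoidHom.mem_ker]
  apply Units.ext
  rw [rGL_val, Units.val_one]
  exact hT q hq _ (liesOver_smul _ g (padicPlace_liesOverPrime _)) x hx

theorem M_eq_one_of_mem_ker {M : GQ →* M2 k} {g : GQ} (hg : g ∈ (rGL M).ker) : M g = 1 := by
  have := congrArg Units.val (MonoidHom.mem_ker.1 hg)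
  simpa using this

theorem smooth_ad0 {M : GQ →* M2 k} (hfin : GaloisFactorsThroughFiniteLevel M)
    {T : Finset Nat.Primes} (hT : UnramOutside M T) : Smooth (LS T) (ad0 p M) := by
  refine Smooth.of_forall_eq_one (isOpen_ker_rGL hfin hT) (fun n hn => ?_)
  ext X : 2
  rw [ad0_apply_coe, M_eq_one_of_mem_ker hn, M_eq_one_of_mem_ker ((rGL M).ker.inv_mem hn)]
  simp

theorem smooth_dualT_ad0 {M : GQ →* M2 k} (hfin : GaloisFactorsThroughFiniteLevel M)
    {T : Finset Nat.Primes} (hT : UnramOutside M T) (hpT : pPrime p ∈ T) :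
    Smooth (LS T) ((ad0 p M).dual.twist (cycloChar p)) := by
  refine Smooth.of_forall_eq_one
    ((LS T).isOpen_inf (isOpen_ker_rGL hfin hT) (LS_isOpen_ker_cycloChar p T hpT))
    (fun n hn => ?_)
  have h1 : ad0 p M n⁻¹ = 1 := by
    ext X : 2
    rw [ad0_apply_coe, inv_inv, M_eq_one_of_mem_ker hn.1,
      M_eq_one_of_mem_ker ((rGL M).ker.inv_mem hn.1)]
    simp
  have h2 : cycloChar p n = 1 := hn.2
  ext f X
  rw [Representation.twist_apply_apply, h2, Representation.dual_apply, h1,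
    Module.Dual.transpose_apply]
  simp

/-! ### the cyclotomic side -/

theorem fixesMu_commutator (N : ℕ) (hN : N ≠ 0) (g h : GQ) : FixesMu N (g * h * g⁻¹ * h⁻¹) := by
  have : NeZero N := ⟨hN⟩
  have h1 : ES.D.cyc N (g * h * g⁻¹ * h⁻¹) = 1 := by
    simp only [map_mul, map_inv]
    rw [mul_comm (ES.D.cyc N g), mul_assoc, mul_assoc, mul_inv_cancel_left, mul_inv_cancel]
  intro ζ hζ
  rw [ES.D.cyc_spec N _ ζ hζ, h1, Units.val_one]
  by_cases hN1 : N = 1
  · subst hN1
    simp at hζ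
    simp [hζ]
  · have : Fact (1 < N) := ⟨by omega⟩
    rw [ZMod.val_one, pow_one]

/-- the subgroup fixing `μ_N`. -/
def fixMu (N : ℕ) : Subgroup GQ := (cycloNF N).fixingSubgroup

theorem mem_fixMu {N : ℕ} {g : GQ} : g ∈ fixMu N ↔ FixesMu N g :=
  mem_fixingSubgroup_cycloNF_iff N g

theorem FixesMu.of_dvd {N N' : ℕ} (h : N ∣ N') {g : GQ} (hg : FixesMu N' g) : FixesMu N g := by
  intro ζ hζ
  obtain ⟨c, rfl⟩ := h
  exact hg ζ (by rw [pow_mul, hζ, one_pow])

/-- the value of the cyclotomic character on a Frobenius element. -/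
theorem cycloChar_frobenius {ℓ : ℕ} (hℓ : ℓ.Prime) (hℓp : ℓ ≠ p) {A : ValuationSubring Qbar}
    (hA : A.LiesOverPrime ℓ) {φ : GQ} (hφ : A.IsFrobeniusAt φ ℓ) :
    ((cycloChar p φ : (ZMod p)ˣ) : ZMod p) = (ℓ : ZMod p) := by
  have : NeZero p := ⟨(Fact.out : p.Prime).ne_zero⟩
  exact ES.D.cyc_frobenius p hℓ
    (fun h => hℓp ((Nat.prime_dvd_prime_iff_eq hℓ Fact.out).1 h)) hA hφ

/-! ### `GT.Hyp` -/

theorem two_sq_ne_one_zmod_five : ((2 : ℕ) : ZMod 5) ^ 2 ≠ 1 := by decide

theorem hyp_of_resHyp {M : GQ →* M2 k} (hM : ResHyp p M) : GT.Hyp p (rGL M) where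
  split := hM.split
  irr2 := hM.irr2
  det5 := by
    intro hp5
    obtain ⟨A, hA, φ, hφ⟩ := S54.exists_frob 2 Nat.prime_two
    refine ⟨φ, ?_⟩
    rw [rGL_val, hM.det, cycloChar_frobenius Nat.prime_two (by omega) hA hφ, ← map_pow, ← map_one
      (algebraMap (ZMod p) k)]
    intro h
    have h1 := (algebraMap (ZMod p) k).injective h
    subst hp5
    exact two_sq_ne_one_zmod_five h1

/-! ### the selection hypothesis -/

theorem selHyp [Finite k] (hp2 : p ≠ 2) {M : GQ →* M2 k} (hM : ResHyp p M)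
    (T : Finset Nat.Primes) :
    SelHyp T ((ad0 p M).dual.twist (cycloChar p)) (rGL M) GoodMat where
  good_gen := fun _ _ hg hk hj => hg.gen hk hj
  good_conj := fun _ h hg => hg.conj h
  sel0 := by
    intro m
    have hp : p.Prime := Fact.out
    have hchar : CharP k p := charP_of_injective_algebraMap (algebraMap (ZMod p) k).injective p
    obtain ⟨τ, hτ, hg⟩ := GT.sel0 hp2 (rGL M) (hyp_of_resHyp hM) (fixMu (p ^ m))
      (fun g h => mem_fixMu.2 (fixesMu_commutator _ (pow_ne_zero _ hp.ne_zero) g h))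
    exact ⟨τ, mem_fixMu.1 hτ, hg⟩
  sel := by
    intro m ψ hψ hψB
    have hp : p.Prime := Fact.out
    have hchar : CharP k p := charP_of_injective_algebraMap (algebraMap (ZMod p) k).injective p
    have hcoc := (mem_Z1.1 hψ).1
    set e := trEquiv (p := p) (k := k) hp2 with he
    have hequiv : ∀ (g : GQ) (X : Ad0 p k),
        ((ad0 p M).dual.twist (cycloChar p)) g (e X) = e (twAd (rGL M g) X) :=
      fun g X => dualT_trForm M hM.det g X
    obtain ⟨τ, hτ, hg, hne⟩ := GT.selection hp2 (rGL M) (hyp_of_resHyp hM) (fixMu (p ^ (m + 1)))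
      (fun g h => mem_fixMu.2 (fixesMu_commutator _ (pow_ne_zero _ hp.ne_zero) g h))
      (fun g hg => by
        rw [rGL_val, hM.det, cycloChar_eq_one_of_fixes p g
          ((mem_fixMu.1 hg).of_dvd (dvd_pow_self p (Nat.succ_ne_zero m)))]
        simp)
      (fun g => ((e.symm (ψ g) : Ad0 p k) : M2 k))
      (fun g => (mem_Ad0 p _).1 (e.symm (ψ g)).2)
      (fun g h => by
        have h1 : e.symm (ψ (g * h)) = e.symm (ψ g) + twAd (rGL M g) (e.symm (ψ h)) := by
          apply e.injective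
          rw [map_add, ← hequiv, LinearEquiv.apply_symm_apply, LinearEquiv.apply_symm_apply,
            LinearEquiv.apply_symm_apply, hcoc, add_comm]
        exact congrArg Subtype.val h1)
      (by
        rintro ⟨m0, hm0, hm⟩
        apply hψB
        refine mem_B1.2 ⟨e ⟨m0, (mem_Ad0 p _).2 hm0⟩, fun g => ?_⟩
        rw [hequiv, ← map_sub, ← LinearEquiv.symm_apply_eq]
        exact Subtype.ext (hm g))
    refine ⟨τ, (mem_fixMu.1 hτ).of_dvd (pow_dvd_pow p (Nat.le_succ m)), hg, fun y hy => hne ?_⟩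
    refine ⟨(e.symm y : Ad0 p k), (mem_Ad0 p _).1 (e.symm y).2, ?_⟩
    have h1 : e.symm (ψ τ) = twAd (rGL M τ) (e.symm y) - e.symm y := by
      apply e.injective
      rw [map_sub, ← hequiv, LinearEquiv.apply_symm_apply, LinearEquiv.apply_symm_apply, hy]
    exact congrArg Subtype.val h1

/-! ### the final statement -/

/-- **Existence of Taylor-Wiles primes** killing `H¹(G_Σ, ad⁰(1))` (shape of `Target.tw`). -/
theorem exists_TW_primes [Finite k] (hp2 : p ≠ 2) (M : GQ →* M2 k) (hM : ResHyp p M)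
    (T : Finset Nat.Primes) (hpT : pPrime p ∈ T) (hur : UnramOutside M T) :
    ∃ r : ℕ, ∀ n : ℕ, ∃ qv : Fin r → Nat.Primes, Function.Injective qv ∧
      (∀ i, qv i ∉ T ∧ p ^ (n + 1) ∣ (qv i : ℕ) - 1) ∧
      (∀ i, ∀ P : ValuationSubring Qbar, P.LiesOverPrime (qv i : ℕ) → ∀ φ : GQ,
        P.IsFrobeniusAt φ (qv i : ℕ) →
          ∃ α β : k, α ≠ β ∧ (M φ).charpoly = (X - C α) * (X - C β)) ∧
      ∀ (hpS : pPrime p ∈ T ∪ Finset.univ.image qv)
        (y : H1 (LS (T ∪ Finset.univ.image qv))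
          ((arithDatum p (T ∪ Finset.univ.image qv) hpS).dualT (ad0 p M))),
        (∀ v : ↥(T ∪ Finset.univ.image qv), v.1 ∉ T →
          ((arithDatum p (T ∪ Finset.univ.image qv) hpS).loc v
            ((arithDatum p (T ∪ Finset.univ.image qv) hpS).dualT (ad0 p M))).map1 y = 0) →
          y = 0 := by
  have hsm : Smooth (LS T) ((ad0 p M).dual.twist (cycloChar p)) :=
    smooth_dualT_ad0 hM.fin hur hpT
  obtain ⟨r, hr⟩ := exists_primes_datum hp2 (selHyp hp2 hM T) hpT (isOpen_ker_rGL hM.fin hur)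
  refine ⟨r, fun n => ?_⟩
  obtain ⟨qv, hinj, hq, hgood, hkill⟩ := hr (n + 1)
  exact ⟨qv, hinj, hq, fun i P hP φ hφ => hgood i P hP φ hφ, hkill⟩

end Fermat.Agent.S56.TW

end
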